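/-
TEAM CFT -> S55, layer [GLOB-TW] (architect helper78): the cyclotomic tower.

DELIVERABLE: `Num.Stmt_TWorb` : for a good `H ≤ G_ℚ` (open for the `S`-levels, `χ_p` trivial on it)
there is `W ≤ H` open, normal in `H`, `[H : W] = p ^ m`, with
`2 * ∑_{q ∈ S} #(D_q \ G_ℚ / W) < [H : W] + 2`.

ROUTE.  `κ_j := kap (p ^ j) : G_ℚ → (ℤ/p^j)ˣ` the cyclotomic character modulo `p ^ j`,
`W_j := ker κ_j ⊓ H`, `I := [G_ℚ : H]`, `R_j := [H : W_j]`.
* `ker κ_j` is an `S`-level (`Stmt_kerOpen`, from `GN.roots`), so `W_j` is open, normal in `H`.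
* `R_j = #κ_j(H) = p ^ m` with `m + 1 ≤ j`, because `κ_j(H) ≤ ker ((ℤ/p^j)ˣ → (ℤ/p)ˣ)`
  (`Stmt_relIndex`).
* `#(D \ G / W_j) * #κ_j(D) ≤ [G : W_j] = I * R_j` (`Stmt_count`, pure group theory).
* `q ≠ p` : `D_q` contains a Frobenius, `κ_j(Frob) = q` (`Stmt_frob`) and
  `p ^ j ≤ p ^ c * ord(q mod p ^ j)` (`Stmt_lte`), so `#(D_q \ G / W_j) ≤ p ^ c * I`.
* `q = p` : `κ_j(D_p) = (ℤ/p^j)ˣ` (`Stmt_wild`: `Φ_{p^j}` is Eisenstein, hence irreducible over
  `ℚ_p`), so `#(D_p \ G / W_j) ≤ I`; moreover `κ_j` is onto, so `I * R_j ≥ φ(p ^ j) → ∞`.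

Each package proves `theorem xxx (deps as hypotheses) : Stmt_xxx` in its own file
`Fermat/Agent/CFT/TW/<Name>.lean`.
-/
import Fermat.Agent.CFT.Num.Interface

set_option autoImplicit false

noncomputable section

namespace Fermat.Agent.CFT.TW

open Fermat.Agent.CFT.Top Fermat.Agent.CFT.Local ExtCitation

/-- `ℚ̄` -/
abbrev Qb : Type := AlgebraicClosure ℚ

/-- the cyclotomic character modulo `n`, `G_ℚ → (ℤ/n)ˣ`. -/
def kap (n : ℕ) [NeZero n] : GQ →* (ZMod n)ˣ :=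
  MonoidHom.mk'
    (fun σ => modularCyclotomicCharacter Qb (IsAlgClosed.card_rootsOfUnity_eq Qb n)
      (σ : Qb ≃+* Qb))
    (fun a b => by rw [← map_mul]; congr 1)

/-- the defining property of `kap`. -/
theorem kap_spec (n : ℕ) [NeZero n] (σ : GQ) {t : Qb} (ht : t ^ n = 1) :
    σ t = t ^ ((kap n σ : (ZMod n)ˣ) : ZMod n).val := by
  have ht0 : t ≠ 0 := by
    rintro rfl
    rw [zero_pow (NeZero.ne n)] at ht
    exact zero_ne_one ht
  have h1 : Units.mk0 t ht0 ∈ rootsOfUnity n Qb := by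
    rw [mem_rootsOfUnity]
    exact Units.ext ht
  exact modularCyclotomicCharacter.spec (L := Qb) (IsAlgClosed.card_rootsOfUnity_eq Qb n)
    (σ : Qb ≃+* Qb) h1

/-- `kap` is determined by the action on one primitive root. -/
theorem kap_eq_of (n : ℕ) [NeZero n] (σ : GQ) {ω : Qb} (hω : IsPrimitiveRoot ω n) {c : ZMod n}
    (h : σ ω = ω ^ c.val) : ((kap n σ : (ZMod n)ˣ) : ZMod n) = c := by
  have h1 := kap_spec n σ hω.pow_eq_one
  rw [h] at h1
  exact (ZMod.val_injective n (hω.pow_inj (ZMod.val_lt _) (ZMod.val_lt _) h1)).symm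

theorem kap_eq_one_iff (n : ℕ) [NeZero n] (σ : GQ) {ω : Qb} (hω : IsPrimitiveRoot ω n) :
    kap n σ = 1 ↔ σ ω = ω := by
  rcases Nat.lt_or_ge 1 n with hn | hn
  · have : Fact (1 < n) := ⟨hn⟩
    constructor
    · intro h
      have := kap_spec n σ hω.pow_eq_one
      rwa [h, Units.val_one, ZMod.val_one, pow_one] at this
    · intro h
      apply Units.ext
      rw [Units.val_one]
      apply kap_eq_of n σ hω
      rw [ZMod.val_one, pow_one, h]
  · have h1 : n = 1 := le_antisymm hn (Nat.one_le_iff_ne_zero.mpr (NeZero.ne n))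
    subst h1
    have h2 : ω = 1 := by simpa using hω.pow_eq_one
    constructor
    · intro _; rw [h2, map_one]
    · intro _; exact Subsingleton.elim _ _

/-- existence of primitive roots of unity in `ℚ̄`. -/
theorem exists_primitiveRoot (n : ℕ) [NeZero n] : ∃ ω : Qb, IsPrimitiveRoot ω n :=
  have : NeZero (n : Qb) := ⟨Nat.cast_ne_zero.mpr (NeZero.ne n)⟩
  HasEnoughRootsOfUnity.exists_primitiveRoot Qb n

instance neZero_pow (p : ℕ) [Fact p.Prime] (j : ℕ) : NeZero (p ^ j) :=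
  ⟨pow_ne_zero _ (Fact.out : p.Prime).ne_zero⟩

/-! ### the packages -/

/-- TW-A (kerOpen) : `ker κ_j` is an `S`-level.  (`GN.roots GN.ram1 : GN.Stmt_Roots` puts a
primitive `p ^ j`-th root of unity `ω` in a field `F` unramified outside `S`;
`F.fixingSubgroup ≤ ker κ_j` by `kap_eq_one_iff`.) -/
def Stmt_kerOpen : Prop :=
  ∀ (p : ℕ) [Fact p.Prime] (S : Finset Nat.Primes), pPrime p ∈ S → ∀ j : ℕ,
    (kap (p ^ j)).ker ∈ (levS S).S

/-- TW-B (frob) : the decomposition group at `q ∤ n` contains an element acting on `μ_n` as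
`t ↦ t ^ q`.
Proof: `FD.D_exists_frobenius_at (padicPlace q)` gives `σ` in the decomposition group of
`padicPlace q` (`= range (localGaloisToGlobal q)`, `range_localGaloisToGlobal` in
CFT/LocalBridge.lean or ShaBridge.lean) with `σ b - b ^ q ∈ primeOf V` for all integral `b`.
For `b = ω` primitive `n`-th root: `ω ^ κ - ω ^ q ∈ 𝔭`; if `κ ≠ q` in `ℤ/n` then `1 - ω ^ i ∈ 𝔭`
for some `0 < i < n`, but `∏_{0<i<n} (1 - ω ^ i) = n` is prime to `q`. -/
def Stmt_frob : Prop :=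
  ∀ (q : ℕ) [Fact q.Prime] (n : ℕ) [NeZero n], n.Coprime q →
    ∃ τ : Gq q, ((kap n (localGaloisToGlobal q τ) : (ZMod n)ˣ) : ZMod n) = (q : ZMod n)

/-- TW-C (wild) : the decomposition group at `p` maps ONTO `(ℤ/p^j)ˣ`.
Proof: `Φ_{p^j}(X + 1)` is Eisenstein at `p` over `ℤ`
(`Polynomial.cyclotomic_prime_pow_comp_X_add_one_isEisensteinAt`), hence over `ℤ_[p]`, hence
`Φ_{p^j}` is irreducible over `ℤ_[p]` and (Gauss) over `ℚ_[p]`; `PadicAlgCl p` is normal over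
`ℚ_[p]`, so its automorphism group is transitive on the roots of `Φ_{p^j}` = primitive roots:
for `ω` primitive in `ℚ̄`, there is `τ` with `τ (ι ω) = (ι ω) ^ u.val`, `ι = padicEmbedding p`;
conclude by `padicEmbedding_localGaloisToGlobal`, injectivity of `ι`, and `kap_eq_of`. -/
def Stmt_wild : Prop :=
  ∀ (p : ℕ) [Fact p.Prime] (j : ℕ) (u : (ZMod (p ^ j))ˣ),
    ∃ τ : Gq p, kap (p ^ j) (localGaloisToGlobal p τ) = u

/-- TW-D (lte) : the order of `q` modulo `p ^ j` is at least `p ^ (j - c)`.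
Proof: `c := v_p(q ^ (p - 1) - 1)`, `d := orderOf u`; `p ^ j ∣ q ^ d - 1 ∣ q ^ ((p - 1) d) - 1` and
`v_p((q ^ (p-1)) ^ d - 1) = c + v_p(d)` (`padicValNat.pow_sub_pow`, `p` odd), so
`p ^ (j - c) ∣ d`. -/
def Stmt_lte : Prop :=
  ∀ (p q : ℕ) [Fact p.Prime], p ≠ 2 → q.Prime → q ≠ p →
    ∃ c : ℕ, ∀ (j : ℕ) (u : (ZMod (p ^ j))ˣ), (u : ZMod (p ^ j)) = (q : ZMod (p ^ j)) →
      p ^ j ≤ p ^ c * orderOf u

/-- TW-E (count) : pure group theory.  `#(D \ G / W) * #κ(D) ≤ [G : W]` if `W ≤ ker κ`.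
Proof: choose representatives `g_x` of the double cosets and `d_t ∈ D` of `t ∈ κ(D)`;
`(x, t) ↦ d_t g_x W` is injective. -/
def Stmt_count : Prop :=
  ∀ (G T : Type) [Group G] [Group T] (κ : G →* T) (D W : Subgroup G), W ≤ κ.ker →
    W.FiniteIndex →
    Nat.card (DoubleCoset.Quotient (D : Set G) (W : Set G)) * Nat.card (D.map κ) ≤ W.index

/-- TW-F (relIndex) : `[H : ker κ_j ⊓ H] = p ^ m`, `m + 1 ≤ j`, if `χ_p` is trivial on `H`.
Proof: the relative index is `#κ_j(H)`; `κ_j(H)` lies in the kernel of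
`ZMod.unitsMap : (ℤ/p^j)ˣ → (ℤ/p)ˣ` (`h` fixes `ω ^ (p ^ (j-1))`, a primitive `p`-th root, by
`CFT.apply_eq_pow_cycloChar`), which has `φ(p^j)/φ(p) = p ^ (j - 1)` elements
(`ZMod.unitsMap_surjective`); Lagrange + `Nat.dvd_prime_pow`. -/
def Stmt_relIndex : Prop :=
  ∀ (p : ℕ) [Fact p.Prime] (H : Subgroup GQ), (∀ h ∈ H, cycloChar p h = 1) → ∀ j : ℕ, 1 ≤ j →
    ∃ m : ℕ, m + 1 ≤ j ∧ ((kap (p ^ j)).ker ⊓ H).relIndex H = p ^ m

/-- TW-G : the assembly. -/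
def Stmt_assembly : Prop :=
  Stmt_kerOpen → Stmt_frob → Stmt_wild → Stmt_lte → Stmt_count → Stmt_relIndex → Num.Stmt_TWorb

end Fermat.Agent.CFT.TW

end
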