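/-
TEAM CFT -> S55, layer [GLOB-TW], package TW-G: the assembly `Num.Stmt_TWorb`.
-/
import Fermat.Agent.CFT.TW.Interface

set_option autoImplicit false

namespace Fermat.Agent.CFT.TW

open Fermat.Agent.CFT.Top Fermat.Agent.CFT.Local ExtCitation

/-- the image of the decomposition group at `p` is everything. -/
theorem Assembly_wild (hw : Stmt_wild) (q : Nat.Primes) (p : ℕ) [Fact p.Prime]
    (hqp : (q : ℕ) = p) (j : ℕ) : (primeLocalToGlobal q).range.map (kap (p ^ j)) = ⊤ := by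
  subst hqp
  rw [eq_top_iff]
  intro u _
  obtain ⟨τ, hτ⟩ := hw (q : ℕ) j u
  exact ⟨_, ⟨τ, rfl⟩, hτ⟩

/-- `κ_j` is onto. -/
theorem Assembly_surj (hw : Stmt_wild) (p : ℕ) [Fact p.Prime] (j : ℕ) :
    Function.Surjective (kap (p ^ j)) := by
  intro u
  obtain ⟨τ, hτ⟩ := hw p j u
  exact ⟨_, hτ⟩

/-- the image of the decomposition group at `q ≠ p` is large. -/
theorem Assembly_tame (hf : Stmt_frob) (q : Nat.Primes) (p : ℕ) [Fact p.Prime]
    (hqp : (q : ℕ) ≠ p) (c : ℕ)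
    (hc : ∀ (j : ℕ) (u : (ZMod (p ^ j))ˣ), (u : ZMod (p ^ j)) = ((q : ℕ) : ZMod (p ^ j)) →
      p ^ j ≤ p ^ c * orderOf u) (j : ℕ) :
    p ^ j ≤ p ^ c * Nat.card ((primeLocalToGlobal q).range.map (kap (p ^ j))) := by
  have : Fact (q : ℕ).Prime := ⟨q.2⟩
  have hcop : (p ^ j).Coprime (q : ℕ) :=
    Nat.Coprime.pow_left _ ((Nat.coprime_primes Fact.out q.2).mpr (Ne.symm hqp))
  obtain ⟨τ, hτ⟩ := hf (q : ℕ) (p ^ j) hcop
  refine (hc j _ hτ).trans (Nat.mul_le_mul_left _ ?_)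
  have hmem : kap (p ^ j) (localGaloisToGlobal (q : ℕ) τ) ∈
      (primeLocalToGlobal q).range.map (kap (p ^ j)) := ⟨_, ⟨τ, rfl⟩, rfl⟩
  rw [← Nat.card_zpowers]
  exact Subgroup.card_le_of_le ((Subgroup.zpowers_le).mpr hmem)

theorem assembly : Stmt_assembly := by
  intro hA hB hC hD hE hF p _ hp2 S hpS h H hH
  classical
  obtain ⟨hHopen, hχ⟩ := hH
  have hχ' : ∀ g ∈ H, cycloChar p g = 1 := hχ
  have hp : p.Prime := Fact.out
  have hHopen' : (levS S).IsOpen H := hHopen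
  obtain ⟨U₀, hU₀, hU₀H⟩ := hHopen'
  have hfinU₀ : U₀.FiniteIndex := (levS S).fin U₀ hU₀
  have hfinH : H.FiniteIndex := Subgroup.finiteIndex_of_le hU₀H
  set I : ℕ := H.index with hI
  have hI0 : 0 < I := Nat.pos_of_ne_zero hfinH.index_ne_zero
  -- the constants
  have hex : ∀ q : ↥S, ∃ c : ℕ, ((q.1 : ℕ) ≠ p → ∀ (j : ℕ) (u : (ZMod (p ^ j))ˣ),
      (u : ZMod (p ^ j)) = ((q.1 : ℕ) : ZMod (p ^ j)) → p ^ j ≤ p ^ c * orderOf u) := by
    intro q
    by_cases hq : (q.1 : ℕ) = p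
    · exact ⟨0, fun h => absurd hq h⟩
    · obtain ⟨c, hc⟩ := hD p (q.1 : ℕ) hp2 q.1.2 hq
      exact ⟨c, fun _ => hc⟩
  choose c hc using hex
  set B : ℕ := ∑ q : ↥S, p ^ c q * I with hB'
  set j : ℕ := 2 * B * I + 1 with hj
  have hj1 : 1 ≤ j := by omega
  set K : Subgroup GQ := (kap (p ^ j)).ker with hK
  set W : Subgroup GQ := K ⊓ H with hW
  obtain ⟨m, hm, hRm⟩ := hF p H hχ' j hj1
  have hKlev : K ∈ (levS S).S := hA p S hpS j
  have hWH : W ≤ H := inf_le_right
  have hWK : W ≤ K := inf_le_left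
  have hWopen : (levS S).IsOpen W := by
    obtain ⟨V, hV, hVK, hVU⟩ := (levS S).dir K hKlev U₀ hU₀
    exact ⟨V, hV, le_inf hVK (hVU.trans hU₀H)⟩
  have hfinW : W.FiniteIndex := by
    obtain ⟨V, hV, hVW⟩ := hWopen
    have := (levS S).fin V hV
    exact Subgroup.finiteIndex_of_le hVW
  have hWindex : W.index = p ^ m * I := by
    rw [← Subgroup.relIndex_mul_index hWH, hRm]
  have hmj : p ^ m ≤ p ^ (j - 1) := Nat.pow_le_pow_right hp.pos (by omega)
  have hcardT : Nat.card (ZMod (p ^ j))ˣ = p ^ (j - 1) * (p - 1) := by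
    rw [Nat.card_eq_fintype_card, ZMod.card_units_eq_totient, Nat.totient_prime_pow hp (by omega)]
  have hpj : p ^ (j - 1) ≤ Nat.card (ZMod (p ^ j))ˣ := by
    rw [hcardT]
    exact Nat.le_mul_of_pos_right _ (by have := hp.two_le; omega)
  -- the bound for the number of double cosets
  have hbound : ∀ q : ↥S, Num.nOrb (qDatum p S h) q W ≤ p ^ c q * I := by
    intro q
    have h1 : Num.nOrb (qDatum p S h) q W *
        Nat.card ((primeLocalToGlobal q.1).range.map (kap (p ^ j))) ≤ W.index :=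
      hE GQ _ (kap (p ^ j)) (primeLocalToGlobal q.1).range W hWK hfinW
    rw [hWindex] at h1
    set n := Num.nOrb (qDatum p S h) q W with hn
    by_cases hq : (q.1 : ℕ) = p
    · rw [Assembly_wild hC q.1 p hq j, Subgroup.card_top] at h1
      have h2 : n * p ^ (j - 1) ≤ (p ^ c q * I) * p ^ (j - 1) :=
        calc n * p ^ (j - 1) ≤ n * Nat.card (ZMod (p ^ j))ˣ := Nat.mul_le_mul_left _ hpj
          _ ≤ p ^ m * I := h1
          _ ≤ p ^ (j - 1) * I := Nat.mul_le_mul_right _ hmj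
          _ = (1 * I) * p ^ (j - 1) := by ring
          _ ≤ (p ^ c q * I) * p ^ (j - 1) :=
              Nat.mul_le_mul_right _ (Nat.mul_le_mul_right _ (Nat.one_le_pow _ _ hp.pos))
      exact Nat.le_of_mul_le_mul_right h2 (pow_pos hp.pos _)
    · have h3 := Assembly_tame hB q.1 p hq (c q) (hc q hq) j
      have h2 : n * p ^ j ≤ (p ^ c q * I) * p ^ j :=
        calc n * p ^ j ≤ n * (p ^ c q *
              Nat.card ((primeLocalToGlobal q.1).range.map (kap (p ^ j)))) :=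
              Nat.mul_le_mul_left _ h3
          _ = p ^ c q * (n * Nat.card ((primeLocalToGlobal q.1).range.map (kap (p ^ j)))) := by
              ring
          _ ≤ p ^ c q * (p ^ m * I) := Nat.mul_le_mul_left _ h1
          _ ≤ p ^ c q * (p ^ j * I) :=
              Nat.mul_le_mul_left _ (Nat.mul_le_mul_right _
                (Nat.pow_le_pow_right hp.pos (by omega)))
          _ = (p ^ c q * I) * p ^ j := by ring
      exact Nat.le_of_mul_le_mul_right h2 (pow_pos hp.pos _)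
  -- growth
  have hgrow : p ^ (j - 1) ≤ p ^ m * I := by
    rw [← hWindex]
    have h1 : K.index = Nat.card (ZMod (p ^ j))ˣ := by
      rw [hK, Subgroup.index_ker, MonoidHom.range_eq_top.mpr (Assembly_surj hC p j),
        Subgroup.card_top]
    calc p ^ (j - 1) ≤ K.index := h1 ▸ hpj
      _ ≤ W.index := Nat.le_of_dvd (Nat.pos_of_ne_zero hfinW.index_ne_zero)
          (Subgroup.index_dvd_of_le hWK)
  have hlt : 2 * B * I < p ^ m * I := by
    have h1 : j - 1 < p ^ (j - 1) := Nat.lt_pow_self hp.one_lt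
    have h2 : j - 1 = 2 * B * I := by omega
    omega
  have hlt' : 2 * B < p ^ m := Nat.lt_of_mul_lt_mul_right hlt
  refine ⟨W, hWopen, hWH, ?_, ⟨m, hRm⟩, ?_⟩
  · have : K.Normal := (levS S).normal K hKlev
    rw [hW, Subgroup.inf_subgroupOf_right]
    infer_instance
  · rw [hRm]
    have h1 : ∑ q : ↥S, Num.nOrb (qDatum p S h) q W ≤ B :=
      Finset.sum_le_sum fun q _ => hbound q
    omega

end Fermat.Agent.CFT.TW
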