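/-
CFT / TW, package TW-E (count): `#(D \ G / W) * #κ(D) ≤ [G : W]` if `W ≤ ker κ`.
-/
import Fermat.Agent.CFT.TW.Interface

set_option autoImplicit false

noncomputable section

namespace Fermat.Agent.CFT.TW

theorem count : Stmt_count := by
  intro G T _ _ κ D W hW hfi
  have hfin : Finite (G ⧸ W) := inferInstance
  have hch : ∀ t : D.map κ, ∃ d : G, d ∈ D ∧ κ d = t.1 := fun t => Subgroup.mem_map.1 t.2
  choose d hdD hdκ using hch
  let F : DoubleCoset.Quotient (D : Set G) (W : Set G) × (D.map κ) → G ⧸ W :=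
    fun x => ((d x.2 * x.1.out : G) : G ⧸ W)
  have hF : Function.Injective F := by
    rintro ⟨x, t⟩ ⟨x', t'⟩ h
    have h1 : (d t * x.out)⁻¹ * (d t' * x'.out) ∈ W := QuotientGroup.eq.1 h
    have hx : x = x' := by
      rw [← DoubleCoset.out_eq' D W x, ← DoubleCoset.out_eq' D W x', DoubleCoset.eq]
      refine ⟨(d t')⁻¹ * d t, D.mul_mem (D.inv_mem (hdD t')) (hdD t), _, h1, ?_⟩
      group
    subst hx
    have h2 : κ ((d t * x.out)⁻¹ * (d t' * x.out)) = 1 := hW h1
    have h3 : κ (d t) = κ (d t') := by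
      simp only [map_mul, map_inv, mul_inv_rev] at h2
      have h4 : (κ (d t))⁻¹ * κ (d t') = 1 := by
        have : (κ x.out)⁻¹ * ((κ (d t))⁻¹ * κ (d t')) * κ x.out = 1 := by
          rw [← h2]; group
        have h5 := congrArg (fun z => κ x.out * z * (κ x.out)⁻¹) this
        simpa [mul_assoc] using h5
      exact (inv_mul_eq_one.1 h4)
    have ht : t = t' := Subtype.ext (by rw [← hdκ t, ← hdκ t', h3])
    rw [ht]
  have := Nat.card_le_card_of_injective F hF
  rwa [Nat.card_prod] at this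

end Fermat.Agent.CFT.TW
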