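/-
TEAM CFT, layer [GLOB-TW], package TW-B (frob): the decomposition group at `q ∤ n` contains an
element acting on `μ_n` as `t ↦ t ^ q`.
-/
import Fermat.Agent.CFT.TW.Interface
import Fermat.Agent.FD.D
import Fermat.Agent.CFT.LocalBridge

set_option autoImplicit false

noncomputable section

namespace Fermat.Agent.CFT.TW

open Fermat.Agent.CFT.Top Fermat.Agent.CFT.Local ExtCitation

/-- two `n`-th roots of unity which are congruent modulo a prime ideal containing `q`, `q` prime
to `n`, are equal. -/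
theorem Frob_root_eq {R : Type*} [CommRing R] [IsDomain R] (P : Ideal R) [P.IsPrime] {n q : ℕ}
    (hn : n ≠ 0) (hnq : n.Coprime q) (hq : (q : R) ∈ P) {s t : R} (hs : s ^ n = 1) (ht : t ^ n = 1)
    (hst : s - t ∈ P) : s = t := by
  have hgeom := Commute.geom_sum₂_mul (Commute.all s t) n
  rw [hs, ht, sub_self, mul_eq_zero] at hgeom
  rcases hgeom with hsum | hst'
  · exfalso
    have hres := congrArg (Ideal.Quotient.mk P) hsum
    rw [map_sum, map_zero] at hres
    have h3 : Ideal.Quotient.mk P s = Ideal.Quotient.mk P t := Ideal.Quotient.eq.mpr hst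
    set r := Ideal.Quotient.mk P t with hr
    have hrp : r ^ n = 1 := by rw [hr, ← map_pow, ht, map_one]
    have hr0 : r ≠ 0 := by
      intro h0
      rw [h0, zero_pow hn] at hrp
      exact zero_ne_one hrp
    have hterm : ∀ i ∈ Finset.range n,
        Ideal.Quotient.mk P (s ^ i * t ^ (n - 1 - i)) = r ^ (n - 1) := by
      intro i hi
      rw [map_mul, map_pow, map_pow, h3, ← pow_add]
      congr 1
      have := Finset.mem_range.mp hi
      omega
    rw [Finset.sum_congr rfl hterm, Finset.sum_const, Finset.card_range, nsmul_eq_mul,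
      mul_eq_zero] at hres
    have hp0 : (n : R ⧸ P) = 0 := hres.resolve_right (pow_ne_zero _ hr0)
    have hq0 : (q : R ⧸ P) = 0 := by
      have := Ideal.Quotient.eq_zero_iff_mem.mpr hq
      rwa [map_natCast] at this
    have hcop : IsCoprime (n : ℤ) (q : ℤ) := Nat.isCoprime_iff_coprime.mpr hnq
    obtain ⟨a, b, hab⟩ := hcop
    have := congrArg (Int.cast : ℤ → R ⧸ P) hab
    push_cast at this
    rw [hp0, hq0, mul_zero, mul_zero, add_zero] at this
    exact zero_ne_one this
  · exact sub_eq_zero.mp hst'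

/-- TW-B. -/
theorem frob : Stmt_frob := by
  intro q _ n _ hnq
  have hq : q.Prime := Fact.out
  have hlV : (q : AlgebraicClosure ℚ) ∈ (padicPlace q).nonunits := padicPlace_liesOverPrime q
  obtain ⟨σ, hσ, hσb⟩ := FD.D_exists_frobenius_at (padicPlace q) hq hlV
  have hdec := hσ.mem_decompositionSubgroup
  rw [← range_localGaloisToGlobal] at hdec
  obtain ⟨τ, rfl⟩ := hdec
  refine ⟨τ, ?_⟩
  obtain ⟨ω, hω⟩ := exists_primitiveRoot n
  have hωint : IsIntegral ℤ ω := hω.isIntegral (NeZero.pos n)
  let b : S54.Frob95.Zbar := ⟨ω, hωint⟩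
  have hb : b ^ n = 1 := Subtype.ext hω.pow_eq_one
  have h1 := hσb b
  have hqP : ((q : ℕ) : S54.Frob95.Zbar) ∈ S54.Frob95.primeOf (padicPlace q) := by
    rw [S54.Frob95.mem_primeOf]
    simpa using hlV
  have h2 : localGaloisToGlobal q τ • b = b ^ q :=
    Frob_root_eq (S54.Frob95.primeOf (padicPlace q)) (NeZero.ne n) hnq hqP
      (by rw [← smul_pow', hb, smul_one]) (by rw [← pow_mul, mul_comm, pow_mul, hb, one_pow]) h1
  have h3 : localGaloisToGlobal q τ ω = ω ^ q := congrArg Subtype.val h2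
  have h4 := kap_spec n (localGaloisToGlobal q τ) hω.pow_eq_one
  rw [h3] at h4
  have hfin : IsOfFinOrder ω := isOfFinOrder_iff_pow_eq_one.2 ⟨n, NeZero.pos n, hω.pow_eq_one⟩
  have h5 := hfin.pow_eq_pow_iff_modEq.1 h4
  rw [← hω.eq_orderOf] at h5
  have h6 := (ZMod.natCast_eq_natCast_iff _ _ n).2 h5
  rw [ZMod.natCast_zmod_val] at h6
  exact h6.symm

end Fermat.Agent.CFT.TW

end
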