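/-
TEAM CFT -> S55, layer [GLOB-TW], package TW-A: `ker κ_j` is an `S`-level.
-/
import Fermat.Agent.CFT.TW.Interface
import Fermat.Agent.CFT.GN.Ram1

set_option autoImplicit false

namespace Fermat.Agent.CFT.TW

open Fermat.Agent.CFT.Top Fermat.Agent.CFT.Local ExtCitation

theorem kerOpen : Stmt_kerOpen := by
  intro p _ S hpS j
  obtain ⟨ω, hω⟩ := exists_primitiveRoot (p ^ j)
  have hω0 : ω ≠ 0 := hω.ne_zero (NeZero.ne _)
  obtain ⟨F, hF, hωF⟩ := GN.roots GN.ram1 p S Fact.out ⟨pPrime p, hpS, rfl⟩ j (Units.mk0 ω hω0)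
    (Units.ext hω.pow_eq_one)
  refine ⟨inferInstance, F, hF, ?_⟩
  intro σ hσ
  rw [MonoidHom.mem_ker, kap_eq_one_iff _ σ hω]
  exact (IntermediateField.mem_fixingSubgroup_iff F σ).1 hσ ω hωF

end Fermat.Agent.CFT.TW
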