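/-
TEAM CFT -> S55, layer [GLOB-TW], package TW-D (lte) (helper60).
The order of `q` modulo `p ^ j` is at least `p ^ (j - c)`.
-/
import Fermat.Agent.CFT.TW.Interface

set_option autoImplicit false

namespace Fermat.Agent.CFT.TW

theorem lte : Stmt_lte := by
  intro p q hpF hp2 hq hqp
  have hp : p.Prime := hpF.out
  have hodd : Odd p := hp.odd_of_ne_two hp2
  have hcop : Nat.Coprime q p := (Nat.coprime_primes hq hp).2 hqp
  have hp1 : 0 < p - 1 := by have := hp.two_le; omega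
  set x : ℕ := q ^ (p - 1) with hx
  have hx1 : 1 < x := Nat.one_lt_pow hp1.ne' hq.one_lt
  have hpx : ¬ p ∣ x := fun h => by
    have h1 : p ∣ q := hp.dvd_of_dvd_pow h
    exact hqp ((Nat.prime_dvd_prime_iff_eq hp hq).1 h1).symm
  have hfer : p ∣ x - 1 := by
    have h := Nat.ModEq.pow_totient hcop
    rw [Nat.totient_prime hp] at h
    exact (Nat.modEq_iff_dvd' hx1.le).1 h.symm
  refine ⟨padicValNat p (x - 1), fun j u hu => ?_⟩
  set d := orderOf u with hd
  have hd0 : d ≠ 0 := (orderOf_pos u).ne'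
  have hud : u ^ d = 1 := pow_orderOf_eq_one u
  have hqd : ((q ^ d : ℕ) : ZMod (p ^ j)) = ((1 : ℕ) : ZMod (p ^ j)) := by
    have h := congrArg (fun v : (ZMod (p ^ j))ˣ => (v : ZMod (p ^ j))) hud
    simp only [Units.val_pow_eq_pow_val, Units.val_one, hu] at h
    push_cast
    exact h
  have hq1 : 1 ≤ q ^ d := Nat.one_le_pow _ _ hq.pos
  have hdvd1 : p ^ j ∣ q ^ d - 1 := by
    have h := (ZMod.natCast_eq_natCast_iff _ _ _).1 hqd
    exact (Nat.modEq_iff_dvd' hq1).1 h.symm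
  have hdvd2 : q ^ d - 1 ∣ x ^ d - 1 ^ d := by
    have h := Nat.sub_dvd_pow_sub_pow (q ^ d) 1 (p - 1)
    rw [one_pow] at h ⊢
    rw [hx, ← pow_mul, mul_comm, pow_mul]
    exact h
  have hval := padicValNat.pow_sub_pow hodd hx1 hfer hpx hd0
  have hne : x ^ d - 1 ^ d ≠ 0 := by
    rw [one_pow]
    have : 1 < x ^ d := Nat.one_lt_pow hd0 hx1
    omega
  have hle : j ≤ padicValNat p (x - 1) + padicValNat p d := by
    rw [← hval]
    exact (padicValNat_dvd_iff_le hne).1 (hdvd1.trans hdvd2)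
  calc p ^ j ≤ p ^ (padicValNat p (x - 1) + padicValNat p d) :=
        Nat.pow_le_pow_right hp.pos hle
    _ = p ^ padicValNat p (x - 1) * p ^ padicValNat p d := pow_add _ _ _
    _ ≤ p ^ padicValNat p (x - 1) * d :=
        Nat.mul_le_mul_left _ (Nat.le_of_dvd (Nat.pos_of_ne_zero hd0) pow_padicValNat_dvd)

end Fermat.Agent.CFT.TW
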