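/-
TEAM CFT, TW-F (relIndex) : `[H : ker κ_j ⊓ H] = p ^ m`, `m + 1 ≤ j`, if `χ_p` is trivial on `H`.
-/
import Fermat.Agent.CFT.TW.Interface
import Fermat.Agent.CFT.CycloBridge

set_option autoImplicit false

noncomputable section

namespace Fermat.Agent.CFT.TW

open Fermat.Agent.CFT.Top Fermat.Agent.CFT.Local ExtCitation

/-- the kernel of `(ℤ/p^j)ˣ → (ℤ/p)ˣ` has `p ^ (j - 1)` elements. -/
theorem RelIndex_card_ker (p : ℕ) [Fact p.Prime] (j : ℕ) (hj : 1 ≤ j) :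
    Nat.card (ZMod.unitsMap (dvd_pow_self p (Nat.one_le_iff_ne_zero.mp hj))).ker = p ^ (j - 1) := by
  have hp : p.Prime := Fact.out
  set f := ZMod.unitsMap (dvd_pow_self p (Nat.one_le_iff_ne_zero.mp hj)) with hf
  have hs : Function.Surjective f := ZMod.unitsMap_surjective _
  have h1 := Subgroup.card_mul_index f.ker
  have c1 : Nat.card (ZMod p)ˣ = p - 1 := by
    rw [Nat.card_eq_fintype_card, ZMod.card_units_eq_totient, Nat.totient_prime hp]
  have c2 : Nat.card (ZMod (p ^ j))ˣ = p ^ (j - 1) * (p - 1) := by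
    rw [Nat.card_eq_fintype_card, ZMod.card_units_eq_totient, Nat.totient_prime_pow hp hj]
  rw [Subgroup.index_ker, MonoidHom.range_eq_top.mpr hs, Subgroup.card_top, c1, c2] at h1
  exact Nat.eq_of_mul_eq_mul_right (Nat.sub_pos_of_lt hp.one_lt) h1

theorem RelIndex_map_le (p : ℕ) [Fact p.Prime] (H : Subgroup GQ)
    (hH : ∀ h ∈ H, cycloChar p h = 1) (j : ℕ) (hj : 1 ≤ j) :
    H.map (kap (p ^ j)) ≤ (ZMod.unitsMap (dvd_pow_self p (Nat.one_le_iff_ne_zero.mp hj))).ker := by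
  have hp : p.Prime := Fact.out
  have hp1 : Fact (1 < p) := ⟨hp.one_lt⟩
  rintro _ ⟨h, hh, rfl⟩
  rw [MonoidHom.mem_ker]
  obtain ⟨ω, hω⟩ := exists_primitiveRoot (p ^ j)
  have hpj : p ^ j = p ^ (j - 1) * p := by
    rw [← pow_succ, Nat.sub_add_cancel hj]
  have ht : IsPrimitiveRoot (ω ^ p ^ (j - 1)) p := hω.pow (pow_pos hp.pos j) hpj
  have h1 : h (ω ^ p ^ (j - 1)) = ω ^ p ^ (j - 1) := by
    rw [apply_eq_pow_cycloChar p h ht.pow_eq_one, hH h hh, Units.val_one, ZMod.val_one, pow_one]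
  have h2 : (ω ^ p ^ (j - 1)) ^ p ^ j = 1 := by
    rw [hpj, mul_comm, pow_mul, ht.pow_eq_one, one_pow]
  have h3 := kap_spec (p ^ j) h h2
  rw [h1] at h3
  have h5 : ((kap (p ^ j) h : (ZMod (p ^ j))ˣ) : ZMod (p ^ j)).val ≡ 1 [MOD p] := by
    generalize ((kap (p ^ j) h : (ZMod (p ^ j))ˣ) : ZMod (p ^ j)).val = k at h3
    cases k with
    | zero =>
      rw [pow_zero] at h3
      exact absurd h3 (ht.ne_one hp.one_lt)
    | succ k' =>
      have ht0 : ω ^ p ^ (j - 1) ≠ 0 := ht.ne_zero hp.ne_zero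
      have h6 : (ω ^ p ^ (j - 1)) ^ k' = 1 := by
        rw [pow_succ] at h3
        exact (mul_right_cancel₀ ht0 (by rw [one_mul]; exact h3)).symm
      obtain ⟨c, rfl⟩ := (ht.pow_eq_one_iff_dvd k').mp h6
      show (p * c + 1) % p = 1 % p
      rw [Nat.mul_add_mod]
  apply Units.ext
  rw [ZMod.unitsMap_val, Units.val_one, ← ZMod.natCast_val]
  have := (ZMod.natCast_eq_natCast_iff _ _ p).mpr h5
  rwa [Nat.cast_one] at this

theorem relIndex : Stmt_relIndex := by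
  intro p _ H hH j hj
  have hp : p.Prime := Fact.out
  rw [Subgroup.inf_relIndex_right, Subgroup.relIndex_ker]
  have h1 := Subgroup.card_dvd_of_le (RelIndex_map_le p H hH j hj)
  rw [RelIndex_card_ker p j hj] at h1
  obtain ⟨m, hm, e⟩ := (Nat.dvd_prime_pow hp).1 h1
  exact ⟨m, by omega, e⟩

end Fermat.Agent.CFT.TW

end

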