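/-
TEAM CFT -> S55, layer [GLOB-TW], task TW-C (helper35): the decomposition group at `p` maps onto
`(ℤ/p^j)ˣ`; `Φ_{p^j}` is irreducible over `ℚ_[p]`.   `wild : Stmt_wild`.
-/
import Fermat.Agent.CFT.TW.Interface

set_option autoImplicit false

noncomputable section

namespace Fermat.Agent.CFT.TW

open Fermat.Agent.CFT.Top Fermat.Agent.CFT.Local ExtCitation Polynomial

/-- `Φ_{p^(i+1)}(X + 1)` is Eisenstein over `ℤ_[p]`. -/
theorem Wild_eisenstein (p : ℕ) [hp : Fact p.Prime] (i : ℕ) :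
    ((cyclotomic (p ^ (i + 1)) ℤ_[p]).comp (X + 1)).IsEisensteinAt
      (Ideal.span {(p : ℤ_[p])}) := by
  have hE := cyclotomic_prime_pow_comp_X_add_one_isEisensteinAt p i
  set f : ℤ[X] := (cyclotomic (p ^ (i + 1)) ℤ).comp (X + 1) with hf
  have hfm : f.Monic := by
    rw [hf, show (X + 1 : ℤ[X]) = X + C 1 by simp]
    refine (cyclotomic.monic _ ℤ).comp (monic_X_add_C 1) fun h => ?_
    rw [natDegree_X_add_C] at h
    exact zero_ne_one h.symm
  have hmap : (cyclotomic (p ^ (i + 1)) ℤ_[p]).comp (X + 1) = f.map (Int.castRingHom ℤ_[p]) := by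
    rw [hf, Polynomial.map_comp, map_cyclotomic]
    simp
  rw [hmap]
  have hprime : (Ideal.span {(p : ℤ_[p])}).IsPrime :=
    (Ideal.span_singleton_prime PadicInt.prime_p.ne_zero).2 PadicInt.prime_p
  refine (hfm.map _).isEisensteinAt_of_mem_of_notMem hprime.ne_top ?_ ?_
  · intro n hn
    rw [hfm.natDegree_map] at hn
    have h1 := hE.mem hn
    rw [Ideal.mem_span_singleton] at h1
    obtain ⟨c, hc⟩ := h1
    rw [coeff_map, hc, Ideal.mem_span_singleton]
    exact ⟨(c : ℤ_[p]), by simp⟩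
  · intro h
    apply hE.notMem
    rw [Ideal.span_singleton_pow, Ideal.mem_span_singleton] at h ⊢
    rw [coeff_map, eq_intCast] at h
    have := (PadicInt.pow_p_dvd_int_iff 2 (f.coeff 0)).mp h
    exact_mod_cast this

/-- `Φ_{p^j}` is irreducible over `ℚ_[p]`. -/
theorem Wild_irreducible (p : ℕ) [hp : Fact p.Prime] (j : ℕ) :
    Irreducible (cyclotomic (p ^ j) ℚ_[p]) := by
  cases j with
  | zero =>
    rw [pow_zero, cyclotomic_one]
    simpa using irreducible_X_sub_C (1 : ℚ_[p])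
  | succ i =>
    have hprime : (Ideal.span {(p : ℤ_[p])}).IsPrime :=
      (Ideal.span_singleton_prime PadicInt.prime_p.ne_zero).2 PadicInt.prime_p
    have hmon : ((cyclotomic (p ^ (i + 1)) ℤ_[p]).comp (X + 1)).Monic := by
      rw [show (X + 1 : ℤ_[p][X]) = X + C 1 by simp]
      refine (cyclotomic.monic _ _).comp (monic_X_add_C 1) fun h => ?_
      rw [natDegree_X_add_C] at h
      exact zero_ne_one h.symm
    have hdeg : 0 < ((cyclotomic (p ^ (i + 1)) ℤ_[p]).comp (X + 1)).natDegree := by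
      rw [show (X + 1 : ℤ_[p][X]) = X + C 1 by simp, natDegree_comp, natDegree_X_add_C, mul_one,
        natDegree_cyclotomic]
      exact Nat.totient_pos.mpr (pow_pos hp.out.pos _)
    have h1 : Irreducible ((cyclotomic (p ^ (i + 1)) ℤ_[p]).comp (X + 1)) :=
      (Wild_eisenstein p i).irreducible hprime hmon.isPrimitive hdeg
    have h2 : Irreducible (cyclotomic (p ^ (i + 1)) ℤ_[p]) := by
      have e : (algEquivAevalXAddC (1 : ℤ_[p])) (cyclotomic (p ^ (i + 1)) ℤ_[p]) =
          (cyclotomic (p ^ (i + 1)) ℤ_[p]).comp (X + 1) := by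
        rw [algEquivAevalXAddC_apply]
        simp [comp_eq_aeval]
      rw [← e] at h1
      exact (MulEquiv.irreducible_iff
        ((algEquivAevalXAddC (1 : ℤ_[p])) : ℤ_[p][X] ≃* ℤ_[p][X])).mp h1
    have h3 := ((cyclotomic.monic (p ^ (i + 1)) ℤ_[p]).irreducible_iff_irreducible_map_fraction_map
      (K := ℚ_[p])).mp h2
    rwa [map_cyclotomic] at h3

theorem wild : Stmt_wild := by
  intro p hp j u
  obtain ⟨ω, hω⟩ := exists_primitiveRoot (p ^ j)
  have hinj : Function.Injective (padicEmbedding p) := (padicEmbedding p).injective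
  have hz : IsPrimitiveRoot (padicEmbedding p ω) (p ^ j) := hω.map_of_injective hinj
  have hz' : IsPrimitiveRoot (padicEmbedding p ω ^ (u : ZMod (p ^ j)).val) (p ^ j) :=
    hz.pow_of_coprime _ (ZMod.val_coe_unit_coprime u)
  have : NeZero ((p ^ j : ℕ) : ℚ_[p]) := ⟨Nat.cast_ne_zero.mpr (NeZero.ne _)⟩
  have h1 := hz.minpoly_eq_cyclotomic_of_irreducible (K := ℚ_[p]) (Wild_irreducible p j)
  have h2 := hz'.minpoly_eq_cyclotomic_of_irreducible (K := ℚ_[p]) (Wild_irreducible p j)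
  have : Normal ℚ_[p] (PadicAlgCl p) := IsAlgClosure.normal ℚ_[p] (PadicAlgCl p)
  have hconj : IsConjRoot ℚ_[p] (padicEmbedding p ω ^ (u : ZMod (p ^ j)).val)
      (padicEmbedding p ω) := by
    rw [isConjRoot_def, ← h1, ← h2]
  obtain ⟨τ, hτ⟩ := isConjRoot_iff_exists_algEquiv.mp hconj
  refine ⟨τ, Units.ext (kap_eq_of (p ^ j) _ hω ?_)⟩
  apply hinj
  rw [padicEmbedding_localGaloisToGlobal, hτ, map_pow]

end Fermat.Agent.CFT.TW

end
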