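/-
TEAM CFT -> S55, layer [GLOB-TW]: the unconditional deliverable `Num.Stmt_TWorb`.
-/
import Fermat.Agent.CFT.TW.Assembly
import Fermat.Agent.CFT.TW.KerOpen
import Fermat.Agent.CFT.TW.Frob
import Fermat.Agent.CFT.TW.Wild
import Fermat.Agent.CFT.TW.Lte
import Fermat.Agent.CFT.TW.Count
import Fermat.Agent.CFT.TW.RelIndex

set_option autoImplicit false

namespace Fermat.Agent.CFT.TW

/-- **(TW)** for the arithmetic datum, in terms of double cosets; unconditional. -/
theorem twOrb : Num.Stmt_TWorb :=
  assembly kerOpen frob wild lte count relIndex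

end Fermat.Agent.CFT.TW
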